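/-
S20 (C), helper file: closure properties of the unbundled predicate `IsMF`.
-/
import Fermat.Agent.S20.Defs
import Mathlib.NumberTheory.ModularForms.NormTrace

set_option autoImplicit false

namespace Fermat.Agent.S20

open UpperHalfPlane ModularForm CongruenceSubgroup Filter Topology
open scoped MatrixGroups ModularForm Manifold

variable {N : ℕ} {k l : ℤ} {f g : ℍ → ℂ}

lemma fg_isMF_zero (N : ℕ) (k : ℤ) : IsMF N k (0 : ℍ → ℂ) where
  holo := mdifferentiable_const
  slash γ _ := SlashAction.zero_slash k γ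
  bdd γ := by
    have : (0 : ℍ → ℂ) ∣[k] γ = 0 := SlashAction.zero_slash k γ
    rw [this]
    exact zero_form_isBoundedAtImInfty

lemma fg_isMF_add (hf : IsMF N k f) (hg : IsMF N k g) : IsMF N k (f + g) where
  holo := hf.holo.add hg.holo
  slash γ hγ := by
    rw [SlashAction.add_slash, hf.slash γ hγ, hg.slash γ hγ]
  bdd γ := by
    rw [SlashAction.add_slash]
    exact (hf.bdd γ).add (hg.bdd γ)

lemma fg_isMF_smul (c : ℂ) (hf : IsMF N k f) : IsMF N k (c • f) where
  holo := hf.holo.const_smul c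
  slash γ hγ := by
    rw [ModularForm.SL_smul_slash, hf.slash γ hγ]
  bdd γ := by
    rw [ModularForm.SL_smul_slash]
    exact (hf.bdd γ).const_smul_left c

lemma fg_isMF_neg (hf : IsMF N k f) : IsMF N k (-f) := by
  have := fg_isMF_smul (-1 : ℂ) hf
  simpa using this

lemma fg_isMF_sub (hf : IsMF N k f) (hg : IsMF N k g) : IsMF N k (f - g) := by
  rw [sub_eq_add_neg]
  exact fg_isMF_add hf (fg_isMF_neg hg)

lemma fg_isMF_mul (hf : IsMF N k f) (hg : IsMF N l g) : IsMF N (k + l) (f * g) where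
  holo := hf.holo.mul hg.holo
  slash γ hγ := by
    rw [mul_slash_SL2, hf.slash γ hγ, hg.slash γ hγ]
  bdd γ := by
    rw [mul_slash_SL2]
    exact (hf.bdd γ).mul (hg.bdd γ)

lemma fg_isMF_of_one (hf : IsMF 1 k f) : IsMF N k f where
  holo := hf.holo
  slash γ _ := hf.slash γ (by rw [Gamma0_mem]; exact Subsingleton.elim _ _)
  bdd := hf.bdd

lemma fg_isMF_cast {k' : ℤ} (hf : IsMF N k f) (h : k = k') : IsMF N k' f := h ▸ hf

lemma fg_isMF_mul' {m : ℤ} (hf : IsMF N k f) (hg : IsMF N l g) (h : k + l = m) :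
    IsMF N m (f * g) := fg_isMF_cast (fg_isMF_mul hf hg) h

lemma fg_isMF_const (N : ℕ) (c : ℂ) : IsMF N 0 (fun _ : ℍ => c) where
  holo := mdifferentiable_const
  slash γ _ := by
    ext z
    simp [SL_slash_apply]
  bdd γ := by
    have : (fun _ : ℍ => c) ∣[(0 : ℤ)] γ = fun _ : ℍ => c := by
      ext z
      simp [SL_slash_apply]
    rw [this]
    exact const_boundedAtFilter _ c

lemma fg_isMF_sum {ι : Type*} (s : Finset ι) (F : ι → ℍ → ℂ) (h : ∀ i ∈ s, IsMF N k (F i)) :
    IsMF N k (∑ i ∈ s, F i) := by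
  classical
  induction s using Finset.induction_on with
  | empty => simpa using fg_isMF_zero N k
  | insert a s ha ih =>
    rw [Finset.sum_insert ha]
    exact fg_isMF_add (h a (Finset.mem_insert_self a s))
      (ih fun i hi => h i (Finset.mem_insert_of_mem hi))

/-- Negative weight forms vanish. -/
lemma fg_eq_zero_of_neg [NeZero N] (hf : IsMF N k f) (hk : k < 0) : f = 0 := by
  have := ModularForm.isZero_of_neg_weight (𝒢 := (Gamma0 N).map (Matrix.SpecialLinearGroup.mapGL ℝ)) hk hf.toMF
  simpa using congrArg (fun F : ModularForm _ k => (F : ℍ → ℂ)) this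

end Fermat.Agent.S20
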