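/-
S20 (C), helper file: level-one facts in the unbundled `IsMF 1` language.
-/
import Fermat.Agent.S20.FreeGens.Closure
import Mathlib.NumberTheory.ModularForms.LevelOne.GradedRing

set_option autoImplicit false

namespace Fermat.Agent.S20

open UpperHalfPlane ModularForm CongruenceSubgroup EisensteinSeries
open scoped MatrixGroups ModularForm Manifold

lemma fg_mem_Gamma0_one (γ : SL(2, ℤ)) : γ ∈ Gamma0 1 := by
  rw [Gamma0_mem]
  exact Subsingleton.elim _ _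

/-- a bundled level-one form is `IsMF 1`. -/
lemma fg_isMF_one_coe {m : ℤ} (F : ModularForm 𝒮ℒ m) : IsMF 1 m F where
  holo := F.holo'
  slash γ _ := SlashInvariantForm.slash_action_eqn F _ ⟨γ, rfl⟩
  bdd γ := ModularFormClass.bdd_at_infty_slash F γ

/-- Bundle an `IsMF 1` function as a Mathlib level-one form. -/
noncomputable def fg_toLevelOne {m : ℤ} {P : ℍ → ℂ} (h : IsMF 1 m P) : ModularForm 𝒮ℒ m where
  toFun := P
  slash_action_eq' := by
    rintro _ ⟨γ, rfl⟩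
    exact h.slash γ (fg_mem_Gamma0_one γ)
  holo' := h.holo
  bdd_at_cusps' {c} hc := by
    rw [Subgroup.IsArithmetic.isCusp_iff_isCusp_SL2Z] at hc
    rw [OnePoint.isBoundedAt_iff_forall_SL2Z hc]
    exact fun γ _ => h.bdd γ

@[simp] lemma fg_coe_toLevelOne {m : ℤ} {P : ℍ → ℂ} (h : IsMF 1 m P) :
    ⇑(fg_toLevelOne h) = P := rfl

end Fermat.Agent.S20

namespace Fermat.Agent.S20

open UpperHalfPlane ModularForm CongruenceSubgroup EisensteinSeries
open scoped MatrixGroups ModularForm Manifold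

lemma fg_levelOne_eq_zero_of_neg {m : ℤ} {P : ℍ → ℂ} (h : IsMF 1 m P) (hm : m < 0) : P = 0 := by
  have := ModularFormClass.levelOne_neg_weight_eq_zero hm (fg_toLevelOne h)
  simpa using this

lemma fg_levelOne_eq_zero_of_odd {m : ℤ} {P : ℍ → ℂ} (h : IsMF 1 m P) (hm : Odd m) : P = 0 := by
  have := ModularForm.levelOne_odd_weight_eq_zero hm (fg_toLevelOne h)
  simpa using congrArg (fun F : ModularForm 𝒮ℒ m => (F : ℍ → ℂ)) this

lemma fg_levelOne_eq_zero_of_two {P : ℍ → ℂ} (h : IsMF 1 2 P) : P = 0 := by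
  have := rank_zero_iff_forall_zero.mp ModularForm.levelOne_weight_two_rank_zero (fg_toLevelOne h)
  simpa using congrArg (fun F : ModularForm 𝒮ℒ 2 => (F : ℍ → ℂ)) this

lemma fg_levelOne_const {P : ℍ → ℂ} (h : IsMF 1 0 P) : ∃ c : ℂ, P = fun _ => c := by
  obtain ⟨c, hc⟩ := ModularFormClass.levelOne_weight_zero_const (fg_toLevelOne h)
  exact ⟨c, hc⟩

lemma fg_levelOne_four {P : ℍ → ℂ} (h : IsMF 1 4 P) : ∃ c : ℂ, P = c • (E₄ : ℍ → ℂ) := by
  obtain ⟨c, hc⟩ := (finrank_eq_one_iff_of_nonzero' E₄ (E_ne_zero _ ⟨2, rfl⟩)).mp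
      (Module.rank_eq_one_iff_finrank_eq_one.mp ModularForm.levelOne_weight_four_rank_one)
      (fg_toLevelOne h)
  refine ⟨c, ?_⟩
  have := congrArg (fun F : ModularForm 𝒮ℒ 4 => (F : ℍ → ℂ)) hc
  simpa using this.symm

lemma fg_levelOne_six {P : ℍ → ℂ} (h : IsMF 1 6 P) : ∃ c : ℂ, P = c • (E₆ : ℍ → ℂ) := by
  obtain ⟨c, hc⟩ := (finrank_eq_one_iff_of_nonzero' E₆ (E_ne_zero _ ⟨3, rfl⟩)).mp
      (Module.rank_eq_one_iff_finrank_eq_one.mp ModularForm.levelOne_weight_six_rank_one)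
      (fg_toLevelOne h)
  refine ⟨c, ?_⟩
  have := congrArg (fun F : ModularForm 𝒮ℒ 6 => (F : ℍ → ℂ)) hc
  simpa using this.symm

/-- A level-one form with vanishing constant term is `Δ` times a form of weight `m - 12`. -/
lemma fg_levelOne_cusp {m : ℤ} {P : ℍ → ℂ} (h : IsMF 1 m P)
    (h0 : (qExpansion 1 P).coeff 0 = 0) :
    ∃ g : ℍ → ℂ, IsMF 1 (m - 12) g ∧ P = (ModularForm.discriminant : ℍ → ℂ) * g := by
  have h0' : (qExpansion 1 (fg_toLevelOne h)).coeff 0 = 0 := h0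
  refine ⟨CuspForm.discriminantEquiv (toCuspForm (fg_toLevelOne h) h0'), fg_isMF_one_coe _, ?_⟩
  have := ModularForm.discriminant_mul_discriminantEquiv (toCuspForm (fg_toLevelOne h) h0')
  rw [this]
  rfl

end Fermat.Agent.S20

namespace Fermat.Agent.S20

open UpperHalfPlane ModularForm CongruenceSubgroup EisensteinSeries
open scoped MatrixGroups ModularForm Manifold

/-- Subtracting the constant term times a form with constant term `1` leaves `Δ * g`. -/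
lemma fg_levelOne_sub_eq_discriminant_mul {m : ℤ} {P G : ℍ → ℂ} (h : IsMF 1 m P)
    (hG : IsMF 1 m G) (hG1 : (qExpansion 1 G).coeff 0 = 1) :
    ∃ (c : ℂ) (g : ℍ → ℂ), IsMF 1 (m - 12) g ∧
      P = c • G + (ModularForm.discriminant : ℍ → ℂ) * g := by
  have hcusp := ModularForm.sub_smul_isCuspForm (fg_toLevelOne h) (fg_toLevelOne hG) hG1
  rw [ModularForm.isCuspForm_iff_coeffZero_eq_zero] at hcusp
  set c : ℂ := (qExpansion 1 (fg_toLevelOne h)).coeff 0 with hc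
  obtain ⟨g, hg, hPg⟩ := fg_levelOne_cusp
    (fg_isMF_one_coe (fg_toLevelOne h - c • fg_toLevelOne hG)) hcusp
  refine ⟨c, g, hg, ?_⟩
  have h1 : (⇑(fg_toLevelOne h - c • fg_toLevelOne hG) : ℍ → ℂ) = P - c • G := rfl
  rw [h1] at hPg
  rw [← hPg]
  abel

end Fermat.Agent.S20

namespace Fermat.Agent.S20

open UpperHalfPlane ModularForm CongruenceSubgroup EisensteinSeries
open scoped MatrixGroups ModularForm Manifold

lemma fg_isMF_E₄ : IsMF 1 4 (E₄ : ℍ → ℂ) := fg_isMF_one_coe E₄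

lemma fg_isMF_E₆ : IsMF 1 6 (E₆ : ℍ → ℂ) := fg_isMF_one_coe E₆

lemma fg_discriminant_eq :
    (ModularForm.discriminant : ℍ → ℂ) =
      (1 / 1728 : ℂ) • ((E₄ : ℍ → ℂ) * E₄ * E₄ - (E₆ : ℍ → ℂ) * E₆) := by
  ext z
  rw [ModularForm.discriminant_eq_E₄_cube_sub_E₆_sq z]
  simp only [Pi.smul_apply, Pi.sub_apply, Pi.mul_apply, smul_eq_mul]
  ring

/-- `E₄` and `E₆` have no common zero. -/
lemma fg_E₄_ne_zero_or_E₆_ne_zero (z : ℍ) : E₄ z ≠ 0 ∨ E₆ z ≠ 0 := by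
  by_contra hcon
  push Not at hcon
  have h := ModularForm.discriminant_eq_E₄_cube_sub_E₆_sq z
  rw [hcon.1, hcon.2] at h
  exact ModularForm.discriminant_ne_zero z (by rw [h]; norm_num)

/-- Level one: a form of nonzero weight lies in the ideal `(E₄, E₆)`. -/
lemma fg_levelOne_decomp {m : ℤ} {P : ℍ → ℂ} (h : IsMF 1 m P) (hm : m ≠ 0) :
    ∃ A B : ℍ → ℂ, IsMF 1 (m - 4) A ∧ IsMF 1 (m - 6) B ∧
      P = (E₄ : ℍ → ℂ) * A + (E₆ : ℍ → ℂ) * B := by
  have hzero : P = 0 → ∃ A B : ℍ → ℂ, IsMF 1 (m - 4) A ∧ IsMF 1 (m - 6) B ∧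
      P = (E₄ : ℍ → ℂ) * A + (E₆ : ℍ → ℂ) * B := by
    intro hP
    exact ⟨0, 0, fg_isMF_zero _ _, fg_isMF_zero _ _, by simp [hP]⟩
  rcases lt_or_ge m 0 with hneg | hnn
  · exact hzero (fg_levelOne_eq_zero_of_neg h hneg)
  rcases Int.even_or_odd m with hev | hodd
  swap
  · exact hzero (fg_levelOne_eq_zero_of_odd h hodd)
  obtain ⟨n, rfl⟩ := Int.eq_ofNat_of_zero_le hnn
  have hev' : Even n := by exact_mod_cast hev
  have hn0 : n ≠ 0 := by exact_mod_cast hm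
  obtain ⟨r, hr⟩ := hev'
  have hcases : n = 2 ∨ n = 4 ∨ n = 6 ∨ 8 ≤ n := by omega
  rcases hcases with h2 | h4 | h6 | h8
  · subst h2
    exact hzero (fg_levelOne_eq_zero_of_two h)
  · subst h4
    obtain ⟨c, hc⟩ := fg_levelOne_four h
    refine ⟨fun _ => c, 0, fg_isMF_const 1 c, fg_isMF_zero _ _, ?_⟩
    rw [hc]
    ext z
    simp [mul_comm]
  · subst h6
    obtain ⟨c, hc⟩ := fg_levelOne_six h
    refine ⟨0, fun _ => c, fg_isMF_zero _ _, fg_isMF_const 1 c, ?_⟩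
    rw [hc]
    ext z
    simp [mul_comm]
  · have hk' : 3 ≤ n - 4 := by omega
    have hk'2 : Even (n - 4) := ⟨r - 2, by omega⟩
    have hE' : IsMF 1 ((n : ℤ) - 4) (E hk' : ℍ → ℂ) :=
      fg_isMF_cast (fg_isMF_one_coe (E hk')) (by omega)
    have hG : IsMF 1 (n : ℤ) ((E₄ : ℍ → ℂ) * (E hk' : ℍ → ℂ)) :=
      fg_isMF_mul' fg_isMF_E₄ hE' (by ring)
    have hG1 : (qExpansion 1 ((E₄ : ℍ → ℂ) * (E hk' : ℍ → ℂ))).coeff 0 = 1 := by
      rw [ModularForm.qExpansion_mul_coe one_pos one_mem_strictPeriods_SL E₄ (E hk'),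
        PowerSeries.coeff_zero_eq_constantCoeff, map_mul,
        ← PowerSeries.coeff_zero_eq_constantCoeff,
        E_qExpansion_coeff_zero _ ⟨2, rfl⟩, E_qExpansion_coeff_zero hk' hk'2, mul_one]
    obtain ⟨c, g, hg, hP⟩ := fg_levelOne_sub_eq_discriminant_mul h hG hG1
    refine ⟨c • (E hk' : ℍ → ℂ) + (1 / 1728 : ℂ) • ((E₄ : ℍ → ℂ) * ((E₄ : ℍ → ℂ) * g)),
      (-(1 / 1728 : ℂ)) • ((E₆ : ℍ → ℂ) * g), ?_, ?_, ?_⟩
    · refine fg_isMF_add (fg_isMF_smul c hE') (fg_isMF_smul _ ?_)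
      exact fg_isMF_mul' fg_isMF_E₄ (fg_isMF_mul' fg_isMF_E₄ hg (by ring : (4 : ℤ) + (n - 12) = n - 8))
        (by ring)
    · exact fg_isMF_smul _ (fg_isMF_mul' fg_isMF_E₆ hg (by ring))
    · rw [hP, fg_discriminant_eq]
      ext z
      simp only [Pi.add_apply, Pi.smul_apply, Pi.mul_apply, Pi.sub_apply, smul_eq_mul]
      ring

end Fermat.Agent.S20
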