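/-
S20 (C), helper file: `E₄, E₆` is a regular sequence on `M_*(Γ₀(N))`.
-/
import Fermat.Agent.S20.FreeGens.LevelOne

set_option autoImplicit false

namespace Fermat.Agent.S20

open UpperHalfPlane ModularForm CongruenceSubgroup EisensteinSeries Filter Topology
open scoped MatrixGroups ModularForm Manifold

/-- A level-one modular form tends to its constant coefficient at `i∞`. -/
lemma fg_tendsto_atImInfty {k : ℤ} (F : ModularForm 𝒮ℒ k) :
    Tendsto (F : ℍ → ℂ) atImInfty (𝓝 ((qExpansion 1 F).coeff 0)) := by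
  have hper := SlashInvariantFormClass.periodic_comp_ofComplex F one_mem_strictPeriods_SL
  have han := ModularFormClass.analyticAt_cuspFunction_zero F one_pos one_mem_strictPeriods_SL
  have hcomp : (cuspFunction 1 F ∘ fun τ : ℍ ↦ Function.Periodic.qParam 1 τ : ℍ → ℂ) = F := by
    funext τ
    simpa using eq_cuspFunction τ one_ne_zero hper
  have ht := han.continuousAt.tendsto.comp (qParam_tendsto_atImInfty one_pos)
  rw [hcomp] at ht
  rw [qExpansion_coeff_zero one_pos han hper, ← cuspFunction_apply_zero one_pos han hper]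
  exact ht

lemma fg_tendsto_E₄ : Tendsto (E₄ : ℍ → ℂ) atImInfty (𝓝 1) := by
  have := fg_tendsto_atImInfty E₄
  rwa [E_qExpansion_coeff_zero _ ⟨2, rfl⟩] at this

lemma fg_tendsto_E₆ : Tendsto (E₆ : ℍ → ℂ) atImInfty (𝓝 1) := by
  have := fg_tendsto_atImInfty E₆
  rwa [E_qExpansion_coeff_zero _ ⟨3, rfl⟩] at this

end Fermat.Agent.S20

namespace Fermat.Agent.S20

open UpperHalfPlane ModularForm CongruenceSubgroup EisensteinSeries Filter Topology
open scoped MatrixGroups ModularForm Manifold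

/-- the quotient `b / E₄ = -a / E₆`. -/
noncomputable def fg_quot (a b : ℍ → ℂ) (z : ℍ) : ℂ :=
  if E₄ z = 0 then -a z / E₆ z else b z / E₄ z

lemma fg_slash_E₄_mul (k : ℤ) (h : ℍ → ℂ) (γ : SL(2, ℤ)) :
    ((E₄ : ℍ → ℂ) * h) ∣[k] γ = (E₄ : ℍ → ℂ) * (h ∣[k - 4] γ) := by
  have h1 : ((E₄ : ℍ → ℂ) * h) ∣[k] γ = ((E₄ : ℍ → ℂ) * h) ∣[4 + (k - 4)] γ := by
    congr 1
    ring
  rw [h1, mul_slash_SL2, fg_isMF_E₄.slash γ (fg_mem_Gamma0_one γ)]

lemma fg_slash_E₆_mul (k : ℤ) (h : ℍ → ℂ) (γ : SL(2, ℤ)) :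
    ((E₆ : ℍ → ℂ) * h) ∣[k] γ = (E₆ : ℍ → ℂ) * (h ∣[k - 6] γ) := by
  have h1 : ((E₆ : ℍ → ℂ) * h) ∣[k] γ = ((E₆ : ℍ → ℂ) * h) ∣[6 + (k - 6)] γ := by
    congr 1
    ring
  rw [h1, mul_slash_SL2, fg_isMF_E₆.slash γ (fg_mem_Gamma0_one γ)]

lemma fg_mdiff_quot {a b : ℍ → ℂ} (ha : MDiff a) (hb : MDiff b)
    (hab : ∀ z : ℍ, E₄ z * a z + E₆ z * b z = 0) : MDiff (fg_quot a b) := by
  have hUo : IsOpen {w : ℂ | 0 < w.im} := isOpen_upperHalfPlaneSet
  have hE4 : DifferentiableOn ℂ ((E₄ : ℍ → ℂ) ∘ ofComplex) {w : ℂ | 0 < w.im} :=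
    UpperHalfPlane.mdifferentiable_iff.1 E₄.holo'
  have hE6 : DifferentiableOn ℂ ((E₆ : ℍ → ℂ) ∘ ofComplex) {w : ℂ | 0 < w.im} :=
    UpperHalfPlane.mdifferentiable_iff.1 E₆.holo'
  have hA : DifferentiableOn ℂ (a ∘ ofComplex) {w : ℂ | 0 < w.im} :=
    UpperHalfPlane.mdifferentiable_iff.1 ha
  have hB : DifferentiableOn ℂ (b ∘ ofComplex) {w : ℂ | 0 < w.im} :=
    UpperHalfPlane.mdifferentiable_iff.1 hb
  rw [UpperHalfPlane.mdifferentiable_iff]
  intro w hw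
  have hUn : {w : ℂ | 0 < w.im} ∈ 𝓝 w := hUo.mem_nhds hw
  refine DifferentiableAt.differentiableWithinAt ?_
  by_cases h0 : E₄ (⟨w, hw⟩ : ℍ) = 0
  · -- `E₆ ≠ 0` near `w`
    have h6 : E₆ (⟨w, hw⟩ : ℍ) ≠ 0 := by
      rcases fg_E₄_ne_zero_or_E₆_ne_zero ⟨w, hw⟩ with h | h
      · exact absurd h0 h
      · exact h
    have h6' : ((E₆ : ℍ → ℂ) ∘ ofComplex) w ≠ 0 := by
      simpa [Function.comp_apply, ofComplex_apply_of_im_pos hw] using h6
    have hd6 : DifferentiableAt ℂ ((E₆ : ℍ → ℂ) ∘ ofComplex) w := hE6.differentiableAt hUn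
    have hev : (fg_quot a b ∘ ofComplex) =ᶠ[𝓝 w]
        fun z => -(a ∘ ofComplex) z / ((E₆ : ℍ → ℂ) ∘ ofComplex) z := by
      filter_upwards [hd6.continuousAt.eventually_ne h6', hUn] with z hz hzU
      simp only [Function.comp_apply, ofComplex_apply_of_im_pos hzU] at hz ⊢
      by_cases h4 : E₄ (⟨z, hzU⟩ : ℍ) = 0
      · simp [fg_quot, h4]
      · simp only [fg_quot, h4, if_false]
        have := hab ⟨z, hzU⟩
        field_simp
        linear_combination this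
    exact ((hA.differentiableAt hUn).neg.div hd6 h6').congr_of_eventuallyEq hev
  · have h4' : ((E₄ : ℍ → ℂ) ∘ ofComplex) w ≠ 0 := by
      simpa [Function.comp_apply, ofComplex_apply_of_im_pos hw] using h0
    have hd4 : DifferentiableAt ℂ ((E₄ : ℍ → ℂ) ∘ ofComplex) w := hE4.differentiableAt hUn
    have hev : (fg_quot a b ∘ ofComplex) =ᶠ[𝓝 w]
        fun z => (b ∘ ofComplex) z / ((E₄ : ℍ → ℂ) ∘ ofComplex) z := by
      filter_upwards [hd4.continuousAt.eventually_ne h4', hUn] with z hz hzU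
      simp only [Function.comp_apply, ofComplex_apply_of_im_pos hzU] at hz ⊢
      simp [fg_quot, hz]
    exact ((hB.differentiableAt hUn).div hd4 h4').congr_of_eventuallyEq hev

/-- `E₄, E₆` is a regular sequence on `M_*(Γ₀(N))`. -/
lemma fg_regular {N : ℕ} {k : ℤ} {a b : ℍ → ℂ} (ha : IsMF N (k - 4) a)
    (hb : IsMF N (k - 6) b) (hab : (E₄ : ℍ → ℂ) * a + (E₆ : ℍ → ℂ) * b = 0) :
    ∃ h : ℍ → ℂ, IsMF N (k - 10) h ∧ b = (E₄ : ℍ → ℂ) * h ∧ a = -((E₆ : ℍ → ℂ) * h) := by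
  have hab' : ∀ z : ℍ, E₄ z * a z + E₆ z * b z = 0 := fun z => by
    simpa using congrFun hab z
  have hb_eq : b = (E₄ : ℍ → ℂ) * fg_quot a b := by
    ext z
    simp only [Pi.mul_apply, fg_quot]
    by_cases h4 : E₄ z = 0
    · have h6 : E₆ z ≠ 0 := (fg_E₄_ne_zero_or_E₆_ne_zero z).resolve_left (not_not.2 h4)
      have := hab' z
      rw [h4, zero_mul, zero_add] at this
      rw [if_pos h4, h4, zero_mul]
      exact (mul_eq_zero.1 this).resolve_left h6
    · rw [if_neg h4, mul_div_cancel₀ _ h4]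
  have ha_eq : a = -((E₆ : ℍ → ℂ) * fg_quot a b) := by
    ext z
    simp only [Pi.mul_apply, Pi.neg_apply, fg_quot]
    by_cases h4 : E₄ z = 0
    · have h6 : E₆ z ≠ 0 := (fg_E₄_ne_zero_or_E₆_ne_zero z).resolve_left (not_not.2 h4)
      rw [if_pos h4]
      field_simp
    · rw [if_neg h4]
      have := hab' z
      field_simp
      linear_combination this
  have hholo : MDiff (fg_quot a b) := fg_mdiff_quot ha.holo hb.holo hab'
  -- slash relations
  have hsl4 : ∀ γ : SL(2, ℤ), b ∣[k - 6] γ = (E₄ : ℍ → ℂ) * (fg_quot a b ∣[k - 10] γ) := by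
    intro γ
    conv_lhs => rw [hb_eq]
    rw [fg_slash_E₄_mul]
    congr 2
    ring
  have hsl6 : ∀ γ : SL(2, ℤ), a ∣[k - 4] γ = -((E₆ : ℍ → ℂ) * (fg_quot a b ∣[k - 10] γ)) := by
    intro γ
    conv_lhs => rw [ha_eq]
    rw [SlashAction.neg_slash, fg_slash_E₆_mul]
    congr 3
    ring
  refine ⟨fg_quot a b, ⟨hholo, ?_, ?_⟩, hb_eq, ha_eq⟩
  · intro γ hγ
    have h4 := hsl4 γ
    have h6 := hsl6 γ
    rw [hb.slash γ hγ] at h4
    rw [ha.slash γ hγ] at h6
    ext z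
    have e4 : E₄ z * fg_quot a b z = E₄ z * (fg_quot a b ∣[k - 10] γ) z := by
      have h1 := congrFun h4 z
      have h2 := congrFun hb_eq z
      simp only [Pi.mul_apply] at h1 h2
      rw [← h2, h1]
    have e6 : E₆ z * fg_quot a b z = E₆ z * (fg_quot a b ∣[k - 10] γ) z := by
      have h1 := congrFun h6 z
      have h2 := congrFun ha_eq z
      simp only [Pi.mul_apply, Pi.neg_apply] at h1 h2
      have h3 : -(E₆ z * fg_quot a b z) = -(E₆ z * (fg_quot a b ∣[k - 10] γ) z) := by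
        rw [← h2, h1]
      exact neg_injective h3
    rcases fg_E₄_ne_zero_or_E₆_ne_zero z with h | h
    · exact (mul_left_cancel₀ h e4).symm
    · exact (mul_left_cancel₀ h e6).symm
  · intro γ
    have h4 := hsl4 γ
    have hne : ∀ᶠ z in atImInfty, E₄ z ≠ 0 := fg_tendsto_E₄.eventually_ne one_ne_zero
    have hinv : IsBoundedAtImInfty (fun z => (E₄ z)⁻¹) := by
      have : Tendsto (fun z => (E₄ z)⁻¹) atImInfty (𝓝 (1 : ℂ)⁻¹) :=
        fg_tendsto_E₄.inv₀ one_ne_zero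
      exact this.isBigO_one ℝ
    have hbd : IsBoundedAtImInfty ((b ∣[k - 6] γ) * fun z => (E₄ z)⁻¹) := (hb.bdd γ).mul hinv
    refine Asymptotics.IsBigO.congr' hbd ?_ EventuallyEq.rfl
    filter_upwards [hne] with z hz
    have := congrFun h4 z
    simp only [Pi.mul_apply] at this ⊢
    rw [this, mul_comm (E₄ z), mul_assoc, mul_inv_cancel₀ hz, mul_one]

end Fermat.Agent.S20
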