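/-
S20 (C), helper file: choice of generators of `M_k(Γ₀(N))` modulo `E₄ M_{k-4} + E₆ M_{k-6}`.
-/
import Fermat.Agent.S20.FreeGens.Regular
import Mathlib.LinearAlgebra.Basis.VectorSpace
import Mathlib.LinearAlgebra.Finsupp.LinearCombination

set_option autoImplicit false

namespace Fermat.Agent.S20

open UpperHalfPlane ModularForm CongruenceSubgroup EisensteinSeries
open scoped MatrixGroups ModularForm Manifold

/-- `M_k(Γ₀(N))` as a subspace of `ℍ → ℂ`. -/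
def fgMF (N : ℕ) (k : ℤ) : Submodule ℂ (ℍ → ℂ) where
  carrier := {f | IsMF N k f}
  add_mem' := fun ha hb => fg_isMF_add ha hb
  zero_mem' := fg_isMF_zero N k
  smul_mem' := fun c _ hf => fg_isMF_smul c hf

lemma fg_mem_fgMF {N : ℕ} {k : ℤ} {f : ℍ → ℂ} : f ∈ fgMF N k ↔ IsMF N k f := Iff.rfl

/-- `E₄ M_{k-4} + E₆ M_{k-6}` as a subspace of `ℍ → ℂ`. -/
def fgI (N : ℕ) (k : ℤ) : Submodule ℂ (ℍ → ℂ) where
  carrier := {f | ∃ a b : ℍ → ℂ, IsMF N (k - 4) a ∧ IsMF N (k - 6) b ∧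
    f = (E₄ : ℍ → ℂ) * a + (E₆ : ℍ → ℂ) * b}
  add_mem' := by
    rintro _ _ ⟨a, b, ha, hb, rfl⟩ ⟨a', b', ha', hb', rfl⟩
    exact ⟨a + a', b + b', fg_isMF_add ha ha', fg_isMF_add hb hb', by ring⟩
  zero_mem' := ⟨0, 0, fg_isMF_zero _ _, fg_isMF_zero _ _, by simp⟩
  smul_mem' := by
    rintro c _ ⟨a, b, ha, hb, rfl⟩
    refine ⟨c • a, c • b, fg_isMF_smul c ha, fg_isMF_smul c hb, ?_⟩
    ext z
    simp only [Pi.smul_apply, Pi.add_apply, Pi.mul_apply, smul_eq_mul]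
    ring

lemma fg_mem_fgI {N : ℕ} {k : ℤ} {f : ℍ → ℂ} : f ∈ fgI N k ↔
    ∃ a b : ℍ → ℂ, IsMF N (k - 4) a ∧ IsMF N (k - 6) b ∧
      f = (E₄ : ℍ → ℂ) * a + (E₆ : ℍ → ℂ) * b := Iff.rfl

/-- The quotient `M_k / (E₄ M_{k-4} + E₆ M_{k-6})`. -/
abbrev fgQ (N : ℕ) (k : ℤ) : Type :=
  (fgMF N k) ⧸ (fgI N k).comap (fgMF N k).subtype

/-- index set of the chosen basis of the quotient. -/
abbrev fgIdx (N : ℕ) (k : ℤ) : Type := ↥(Module.Basis.ofVectorSpaceIndex ℂ (fgQ N k))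

/-- the chosen basis of the quotient. -/
noncomputable def fgBasis (N : ℕ) (k : ℤ) : Module.Basis (fgIdx N k) ℂ (fgQ N k) :=
  Module.Basis.ofVectorSpace ℂ (fgQ N k)

/-- lifts of the basis vectors. -/
noncomputable def fgLift (N : ℕ) (k : ℤ) (i : fgIdx N k) : fgMF N k :=
  Classical.choose (Submodule.Quotient.mk_surjective _ (fgBasis N k i))

lemma fgLift_spec (N : ℕ) (k : ℤ) (i : fgIdx N k) :
    Submodule.Quotient.mk (fgLift N k i) = fgBasis N k i :=
  Classical.choose_spec (Submodule.Quotient.mk_surjective _ (fgBasis N k i))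

lemma fgLift_isMF (N : ℕ) (k : ℤ) (i : fgIdx N k) : IsMF N k (fgLift N k i : ℍ → ℂ) :=
  (fgLift N k i).2

/-- generation modulo `E₄ M_{k-4} + E₆ M_{k-6}`. -/
lemma fg_exists_repr {N : ℕ} {k : ℤ} {f : ℍ → ℂ} (hf : IsMF N k f) :
    ∃ (c : fgIdx N k →₀ ℂ) (a b : ℍ → ℂ), IsMF N (k - 4) a ∧ IsMF N (k - 6) b ∧
      f = (c.sum fun i x => x • (fgLift N k i : ℍ → ℂ)) + (E₄ : ℍ → ℂ) * a + (E₆ : ℍ → ℂ) * b := by
  set fb : fgMF N k := ⟨f, hf⟩
  set c := (fgBasis N k).repr (Submodule.Quotient.mk fb) with hc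
  have h1 : Submodule.Quotient.mk (p := (fgI N k).comap (fgMF N k).subtype)
      (c.sum fun i x => x • fgLift N k i) = Submodule.Quotient.mk fb := by
    have h2 := (fgBasis N k).linearCombination_repr (Submodule.Quotient.mk fb)
    rw [← hc, Finsupp.linearCombination_apply] at h2
    rw [← h2, Finsupp.sum, Finsupp.sum, ← Submodule.mkQ_apply, map_sum]
    refine Finset.sum_congr rfl fun i _ => ?_
    rw [map_smul, Submodule.mkQ_apply, fgLift_spec]
  have h3 : fb - (c.sum fun i x => x • fgLift N k i) ∈ (fgI N k).comap (fgMF N k).subtype := by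
    rw [← Submodule.Quotient.eq, h1]
  rw [Submodule.mem_comap] at h3
  obtain ⟨a, b, ha, hb, hab⟩ := h3
  refine ⟨c, a, b, ha, hb, ?_⟩
  have h4 : ((fgMF N k).subtype (c.sum fun i x => x • fgLift N k i) : ℍ → ℂ) =
      c.sum fun i x => x • (fgLift N k i : ℍ → ℂ) := by
    rw [Finsupp.sum, map_sum]
    rfl
  rw [map_sub, h4] at hab
  have h5 : (fgMF N k).subtype fb = f := rfl
  rw [h5] at hab
  rw [add_assoc, ← hab]
  abel

/-- independence modulo `E₄ M_{k-4} + E₆ M_{k-6}`. -/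
lemma fg_eq_zero_of_mem {N : ℕ} {k : ℤ} (c : fgIdx N k →₀ ℂ)
    (h : (c.sum fun i x => x • (fgLift N k i : ℍ → ℂ)) ∈ fgI N k) : c = 0 := by
  have h4 : ((fgMF N k).subtype (c.sum fun i x => x • fgLift N k i) : ℍ → ℂ) =
      c.sum fun i x => x • (fgLift N k i : ℍ → ℂ) := by
    rw [Finsupp.sum, map_sum]
    rfl
  have h3 : (c.sum fun i x => x • fgLift N k i) ∈ (fgI N k).comap (fgMF N k).subtype := by
    rw [Submodule.mem_comap, h4]
    exact h
  have h1 : Submodule.Quotient.mk (p := (fgI N k).comap (fgMF N k).subtype)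
      (c.sum fun i x => x • fgLift N k i) = 0 := by
    rwa [Submodule.Quotient.mk_eq_zero]
  have h2 : Finsupp.linearCombination ℂ (fgBasis N k) c = 0 := by
    rw [Finsupp.linearCombination_apply, ← h1, Finsupp.sum, Finsupp.sum, ← Submodule.mkQ_apply,
      map_sum]
    refine Finset.sum_congr rfl fun i _ => ?_
    rw [map_smul, Submodule.mkQ_apply, fgLift_spec]
  exact (linearIndependent_iff.1 (fgBasis N k).linearIndependent) c h2

end Fermat.Agent.S20
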