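/-
S20 (C), helper file: the free module theorem in `Finsupp` form.
-/
import Fermat.Agent.S20.FreeGens.Basis

set_option autoImplicit false

namespace Fermat.Agent.S20

open UpperHalfPlane ModularForm CongruenceSubgroup EisensteinSeries
open scoped MatrixGroups ModularForm Manifold

/-- index set of all generators. -/
abbrev fgJ (N : ℕ) : Type := Σ k : ℤ, fgIdx N k

/-- weight of a generator. -/
def fgκ (N : ℕ) (j : fgJ N) : ℤ := j.1

/-- the generators. -/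
noncomputable def fgF (N : ℕ) (j : fgJ N) : ℍ → ℂ := (fgLift N j.1 j.2 : ℍ → ℂ)

lemma fgF_isMF (N : ℕ) (j : fgJ N) : IsMF N (fgκ N j) (fgF N j) := fgLift_isMF N j.1 j.2

/-- evaluation of a formal combination. -/
noncomputable def fgEv (N : ℕ) : (fgJ N →₀ (ℍ → ℂ)) →ₗ[ℍ → ℂ] (ℍ → ℂ) :=
  Finsupp.linearCombination (ℍ → ℂ) (fgF N)

lemma fgEv_apply (N : ℕ) (P : fgJ N →₀ (ℍ → ℂ)) :
    fgEv N P = P.sum fun j p => p * fgF N j := by
  rw [fgEv, Finsupp.linearCombination_apply]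
  rfl

/-- homogeneity of a formal combination. -/
def fgRep (N : ℕ) (k : ℤ) (P : fgJ N →₀ (ℍ → ℂ)) : Prop :=
  ∀ j, IsMF 1 (k - fgκ N j) (P j)

lemma fgRep_zero (N : ℕ) (k : ℤ) : fgRep N k 0 := fun _ => fg_isMF_zero _ _

lemma fgRep_add {N : ℕ} {k : ℤ} {P Q : fgJ N →₀ (ℍ → ℂ)} (hP : fgRep N k P)
    (hQ : fgRep N k Q) : fgRep N k (P + Q) := fun j => by
  rw [Finsupp.add_apply]
  exact fg_isMF_add (hP j) (hQ j)

lemma fgRep_neg {N : ℕ} {k : ℤ} {P : fgJ N →₀ (ℍ → ℂ)} (hP : fgRep N k P) :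
    fgRep N k (-P) := fun j => by
  rw [Finsupp.neg_apply]
  exact fg_isMF_neg (hP j)

lemma fgRep_smul {N : ℕ} {k m l : ℤ} {P : fgJ N →₀ (ℍ → ℂ)} {Q : ℍ → ℂ} (hQ : IsMF 1 m Q)
    (hP : fgRep N k P) (h : m + k = l) : fgRep N l (Q • P) := fun j => by
  rw [Finsupp.smul_apply, smul_eq_mul]
  exact fg_isMF_mul' hQ (hP j) (by rw [← h]; ring)

lemma fgEv_isMF {N : ℕ} {k : ℤ} {P : fgJ N →₀ (ℍ → ℂ)} (hP : fgRep N k P) :
    IsMF N k (fgEv N P) := by
  rw [fgEv_apply, Finsupp.sum]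
  refine fg_isMF_sum _ _ fun j _ => ?_
  exact fg_isMF_mul' (fg_isMF_of_one (hP j)) (fgF_isMF N j) (by ring)

/-- constants in weight `k`. -/
noncomputable def fgConst (N : ℕ) (k : ℤ) (c : fgIdx N k →₀ ℂ) : fgJ N →₀ (ℍ → ℂ) :=
  Finsupp.embDomain ⟨Sigma.mk k, sigma_mk_injective⟩
    (c.mapRange (fun z => (fun _ : ℍ => z)) rfl)

lemma fgConst_apply_mk (N : ℕ) (k : ℤ) (c : fgIdx N k →₀ ℂ) (i : fgIdx N k) :
    fgConst N k c ⟨k, i⟩ = fun _ => c i := by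
  have := Finsupp.embDomain_apply_self (⟨Sigma.mk k, sigma_mk_injective⟩ : fgIdx N k ↪ fgJ N)
    (c.mapRange (fun z => (fun _ : ℍ => z)) rfl) i
  rw [fgConst]
  simpa using this

lemma fgConst_apply_of_ne (N : ℕ) (k : ℤ) (c : fgIdx N k →₀ ℂ) (j : fgJ N) (hj : j.1 ≠ k) :
    fgConst N k c j = 0 := by
  rw [fgConst]
  refine Finsupp.embDomain_of_notMem_range _ _ _ ?_
  rintro ⟨i, rfl⟩
  exact hj rfl

lemma fgRep_const (N : ℕ) (k : ℤ) (c : fgIdx N k →₀ ℂ) : fgRep N k (fgConst N k c) := by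
  rintro ⟨k', i⟩
  by_cases h : k' = k
  · subst h
    rw [fgConst_apply_mk]
    exact fg_isMF_cast (fg_isMF_const 1 (c i)) (by simp [fgκ])
  · rw [fgConst_apply_of_ne N k c ⟨k', i⟩ h]
    exact fg_isMF_zero _ _

lemma fgEv_const (N : ℕ) (k : ℤ) (c : fgIdx N k →₀ ℂ) :
    fgEv N (fgConst N k c) = c.sum fun i x => x • (fgLift N k i : ℍ → ℂ) := by
  rw [fgEv_apply, fgConst, Finsupp.sum_embDomain, Finsupp.sum_mapRange_index (by intro i; simp)]
  refine Finsupp.sum_congr fun i _ => ?_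
  ext z
  simp [fgF]

end Fermat.Agent.S20

namespace Fermat.Agent.S20

open UpperHalfPlane ModularForm CongruenceSubgroup EisensteinSeries
open scoped MatrixGroups ModularForm Manifold

/-- generation, `Finsupp` form. -/
theorem fg_generation (N : ℕ) [NeZero N] :
    ∀ (n : ℕ) (k : ℤ), k < n → ∀ f : ℍ → ℂ, IsMF N k f →
      ∃ P : fgJ N →₀ (ℍ → ℂ), fgRep N k P ∧ fgEv N P = f := by
  intro n
  induction n with
  | zero =>
    intro k hk f hf
    refine ⟨0, fgRep_zero N k, ?_⟩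
    rw [map_zero]
    exact (fg_eq_zero_of_neg hf (by simpa using hk)).symm
  | succ n ih =>
    intro k hk f hf
    obtain ⟨c, a, b, ha, hb, hfab⟩ := fg_exists_repr hf
    have hk4 : k - 4 < n := by push_cast at hk; omega
    have hk6 : k - 6 < n := by push_cast at hk; omega
    obtain ⟨Pa, hPa, hPa'⟩ := ih (k - 4) hk4 a ha
    obtain ⟨Pb, hPb, hPb'⟩ := ih (k - 6) hk6 b hb
    refine ⟨fgConst N k c + ((E₄ : ℍ → ℂ) • Pa + (E₆ : ℍ → ℂ) • Pb),
      fgRep_add (fgRep_const N k c)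
        (fgRep_add (fgRep_smul fg_isMF_E₄ hPa (by ring)) (fgRep_smul fg_isMF_E₆ hPb (by ring))), ?_⟩
    rw [map_add, map_add, map_smul, map_smul, fgEv_const, hPa', hPb', hfab, smul_eq_mul,
      smul_eq_mul, add_assoc]

theorem fg_generation' (N : ℕ) [NeZero N] (k : ℤ) (f : ℍ → ℂ) (hf : IsMF N k f) :
    ∃ P : fgJ N →₀ (ℍ → ℂ), fgRep N k P ∧ fgEv N P = f :=
  fg_generation N (k.toNat + 1) k (by push_cast; have := Int.self_le_toNat k; omega) f hf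

/-- splitting a level-one form into constant part and `(E₄, E₆)`-part. -/
lemma fg_levelOne_split {m : ℤ} {P : ℍ → ℂ} (h : IsMF 1 m P) :
    ∃ (c : ℂ) (A B : ℍ → ℂ), IsMF 1 (m - 4) A ∧ IsMF 1 (m - 6) B ∧
      P = (fun _ => c) + (E₄ : ℍ → ℂ) * A + (E₆ : ℍ → ℂ) * B ∧ (m ≠ 0 → c = 0) ∧
      (P = 0 → c = 0 ∧ A = 0 ∧ B = 0) := by
  by_cases hP : P = 0
  · refine ⟨0, 0, 0, fg_isMF_zero _ _, fg_isMF_zero _ _, ?_, fun _ => rfl, fun _ => ⟨rfl, rfl, rfl⟩⟩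
    rw [hP]
    ext z
    simp
  by_cases hm : m = 0
  · subst hm
    obtain ⟨c, hc⟩ := fg_levelOne_const h
    refine ⟨c, 0, 0, fg_isMF_zero _ _, fg_isMF_zero _ _, ?_, fun h => absurd rfl h,
      fun h => absurd h hP⟩
    rw [hc]
    ext z
    simp
  · obtain ⟨A, B, hA, hB, hAB⟩ := fg_levelOne_decomp h hm
    refine ⟨0, A, B, hA, hB, ?_, fun _ => rfl, fun h => absurd h hP⟩
    rw [hAB]
    ext z
    simp

end Fermat.Agent.S20
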