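/-
S20 (C), helper file: freeness in `Finsupp` form.
-/
import Fermat.Agent.S20.FreeGens.Main

set_option autoImplicit false

namespace Fermat.Agent.S20

open UpperHalfPlane ModularForm CongruenceSubgroup EisensteinSeries
open scoped MatrixGroups ModularForm Manifold

/-- there are no generators of negative weight. -/
lemma fgκ_nonneg (N : ℕ) [NeZero N] (j : fgJ N) : 0 ≤ fgκ N j := by
  obtain ⟨k, i⟩ := j
  by_contra hk
  have hk' : k < 0 := by simpa [fgκ] using hk
  have h0 : (fgLift N k i : ℍ → ℂ) = 0 := fg_eq_zero_of_neg (fgLift_isMF N k i) hk'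
  have h1 : fgLift N k i = 0 := Subtype.ext h0
  have h2 := fgLift_spec N k i
  rw [h1, Submodule.Quotient.mk_zero] at h2
  exact (fgBasis N k).ne_zero i h2.symm

/-- freeness, `Finsupp` form. -/
theorem fg_freeness (N : ℕ) [NeZero N] :
    ∀ (n : ℕ) (k : ℤ), k < n → ∀ P : fgJ N →₀ (ℍ → ℂ), fgRep N k P → fgEv N P = 0 → P = 0 := by
  intro n
  induction n with
  | zero =>
    intro k hk P hP _
    ext j : 1
    have hneg : k - fgκ N j < 0 := by
      have := fgκ_nonneg N j
      have hk' : k < 0 := by simpa using hk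
      omega
    rw [fg_levelOne_eq_zero_of_neg (hP j) hneg]
    rfl
  | succ n ih =>
    intro k hk P hP hev
    have hk4 : k - 4 < n := by push_cast at hk; omega
    have hk6 : k - 6 < n := by push_cast at hk; omega
    choose c A B hA hB hPeq hc h0 using fun j => fg_levelOne_split (hP j)
    have hsupp : ∀ j, j ∉ P.support → P j = 0 := fun j hj => by
      simpa [Finsupp.mem_support_iff] using hj
    let Af : fgJ N →₀ (ℍ → ℂ) := Finsupp.onFinset P.support A (fun j hj => by
      by_contra hjs
      exact hj (h0 j (hsupp j hjs)).2.1)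
    let Bf : fgJ N →₀ (ℍ → ℂ) := Finsupp.onFinset P.support B (fun j hj => by
      by_contra hjs
      exact hj (h0 j (hsupp j hjs)).2.2)
    let cJ : fgJ N →₀ ℂ := Finsupp.onFinset P.support c (fun j hj => by
      by_contra hjs
      exact hj (h0 j (hsupp j hjs)).1)
    let cf : fgIdx N k →₀ ℂ := Finsupp.split cJ k
    have hAf : fgRep N (k - 4) Af := fun j => by
      have : Af j = A j := rfl
      rw [this]
      exact fg_isMF_cast (hA j) (by ring)
    have hBf : fgRep N (k - 6) Bf := fun j => by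
      have : Bf j = B j := rfl
      rw [this]
      exact fg_isMF_cast (hB j) (by ring)
    have hsplit : P = fgConst N k cf + ((E₄ : ℍ → ℂ) • Af + (E₆ : ℍ → ℂ) • Bf) := by
      ext j : 1
      rw [Finsupp.add_apply, Finsupp.add_apply, Finsupp.smul_apply, Finsupp.smul_apply,
        smul_eq_mul, smul_eq_mul]
      have hAj : Af j = A j := rfl
      have hBj : Bf j = B j := rfl
      rw [hAj, hBj]
      obtain ⟨k', i⟩ := j
      by_cases hkk : k' = k
      · subst hkk
        rw [fgConst_apply_mk]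
        have hcf : cf i = c ⟨k', i⟩ := rfl
        rw [hcf, hPeq ⟨k', i⟩, add_assoc]
      · rw [fgConst_apply_of_ne N k cf ⟨k', i⟩ hkk, zero_add]
        have hc0 : c ⟨k', i⟩ = 0 := hc ⟨k', i⟩ (by
          simp only [fgκ]
          intro h
          apply hkk
          omega)
        have := hPeq ⟨k', i⟩
        rw [hc0] at this
        rw [this]
        ext z
        simp
    have hev' : fgEv N (fgConst N k cf) + ((E₄ : ℍ → ℂ) * fgEv N Af + (E₆ : ℍ → ℂ) * fgEv N Bf)
        = 0 := by
      rw [← hev]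
      conv_rhs => rw [hsplit]
      rw [map_add, map_add, map_smul, map_smul, smul_eq_mul, smul_eq_mul]
    -- the constant part vanishes
    have hcf0 : cf = 0 := by
      apply fg_eq_zero_of_mem
      rw [← fgEv_const]
      refine ⟨-fgEv N Af, -fgEv N Bf, fg_isMF_neg (fgEv_isMF hAf), fg_isMF_neg (fgEv_isMF hBf), ?_⟩
      have := eq_neg_of_add_eq_zero_left hev'
      rw [this]
      ring
    have hconst0 : fgConst N k cf = 0 := by
      rw [hcf0, fgConst]
      simp
    rw [hconst0, map_zero, zero_add] at hev'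
    obtain ⟨h, hh, hBh, hAh⟩ := fg_regular (fgEv_isMF hAf) (fgEv_isMF hBf) hev'
    obtain ⟨H, hH, hHev⟩ := fg_generation' N (k - 10) h hh
    have hA0 : Af + (E₆ : ℍ → ℂ) • H = 0 := by
      apply ih (k - 4) hk4 _ (fgRep_add hAf (fgRep_smul fg_isMF_E₆ hH (by ring)))
      rw [map_add, map_smul, hHev, hAh, smul_eq_mul]
      ring
    have hB0 : Bf + (-(E₄ : ℍ → ℂ)) • H = 0 := by
      apply ih (k - 6) hk6 _ (fgRep_add hBf (fgRep_smul (fg_isMF_neg fg_isMF_E₄) hH (by ring)))
      rw [map_add, map_smul, hHev, hBh, smul_eq_mul]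
      ring
    rw [hsplit, hconst0, zero_add, eq_neg_of_add_eq_zero_left hA0, eq_neg_of_add_eq_zero_left hB0]
    rw [smul_neg, smul_neg, smul_smul, smul_smul]
    have hmul : (E₆ : ℍ → ℂ) * (-(E₄ : ℍ → ℂ)) = -((E₄ : ℍ → ℂ) * (E₆ : ℍ → ℂ)) := by ring
    rw [hmul]
    ext j : 1
    simp only [Finsupp.add_apply, Finsupp.neg_apply, Finsupp.smul_apply, Finsupp.zero_apply,
      smul_eq_mul]
    ring

theorem fg_freeness' (N : ℕ) [NeZero N] (k : ℤ) (P : fgJ N →₀ (ℍ → ℂ)) (hP : fgRep N k P)
    (hev : fgEv N P = 0) : P = 0 :=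
  fg_freeness N (k.toNat + 1) k (by push_cast; have := Int.self_le_toNat k; omega) P hP hev

end Fermat.Agent.S20
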