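/-
S20, component (C), abstract part: a bounded-below graded module `M` over a graded ring `R`
(both realised as families of subspaces of one commutative algebra `V`) on which `(e4, e6)` is a
regular sequence, where `R_m = e4 R_{m-4} + e6 R_{m-6}` for `m ≠ 0` and `R_0` = constants, is free.
Pure algebra; no modular forms here.
-/
import Mathlib.LinearAlgebra.Basis.VectorSpace
import Mathlib.LinearAlgebra.Finsupp.LinearCombination
import Mathlib.Algebra.Algebra.Bilinear
import Mathlib.Order.ModularLattice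

set_option autoImplicit false

namespace Fermat.Agent.S20.FreeGens

variable {K V : Type} [Field K] [CommRing V] [Algebra K V]

/-- The hypotheses of the abstract free module theorem. -/
structure Hyp (M R : ℤ → Submodule K V) (e4 e6 : V) : Prop where
  mul_mem : ∀ {m k : ℤ} {p f : V}, p ∈ R m → f ∈ M k → p * f ∈ M (m + k)
  e4_mul : ∀ {m : ℤ} {p : V}, p ∈ R m → e4 * p ∈ R (m + 4)
  e6_mul : ∀ {m : ℤ} {p : V}, p ∈ R m → e6 * p ∈ R (m + 6)
  const_mem : ∀ c : K, algebraMap K V c ∈ R 0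
  M_neg : ∀ k : ℤ, k < 0 → ∀ f ∈ M k, f = 0
  R_neg : ∀ m : ℤ, m < 0 → ∀ p ∈ R m, p = 0
  dec : ∀ (m : ℤ) (p : V), p ∈ R m → ∃ (c : K) (A B : V), A ∈ R (m - 4) ∧ B ∈ R (m - 6) ∧
    p = algebraMap K V c + e4 * A + e6 * B ∧ (m ≠ 0 → c = 0)
  reg : ∀ (k : ℤ) (a b : V), a ∈ M (k - 4) → b ∈ M (k - 6) → e4 * a + e6 * b = 0 →
    ∃ h ∈ M (k - 10), b = e4 * h ∧ a = -(e6 * h)

variable {M R : ℤ → Submodule K V} {e4 e6 : V}

lemma Hyp.mem_cast {S : ℤ → Submodule K V} {a b : ℤ} {x : V} (h : x ∈ S a) (hab : a = b) :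
    x ∈ S b := hab ▸ h

lemma Hyp.e4_mem (H : Hyp M R e4 e6) : e4 ∈ R 4 := by
  have h1 : (1 : V) ∈ R 0 := by simpa using H.const_mem 1
  have := H.e4_mul h1
  simpa using this

lemma Hyp.e6_mem (H : Hyp M R e4 e6) : e6 ∈ R 6 := by
  have h1 : (1 : V) ∈ R 0 := by simpa using H.const_mem 1
  have := H.e6_mul h1
  simpa using this

lemma Hyp.e4_mul_M (H : Hyp M R e4 e6) {k : ℤ} {f : V} (hf : f ∈ M (k - 4)) : e4 * f ∈ M k :=
  Hyp.mem_cast (H.mul_mem H.e4_mem hf) (by ring)

lemma Hyp.e6_mul_M (H : Hyp M R e4 e6) {k : ℤ} {f : V} (hf : f ∈ M (k - 6)) : e6 * f ∈ M k :=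
  Hyp.mem_cast (H.mul_mem H.e6_mem hf) (by ring)

/-- the subspace `e4 M_{k-4} + e6 M_{k-6}` -/
def Isub (M : ℤ → Submodule K V) (e4 e6 : V) (k : ℤ) : Submodule K V :=
  (M (k - 4)).map (LinearMap.mulLeft K e4) ⊔ (M (k - 6)).map (LinearMap.mulLeft K e6)

lemma mem_Isub {k : ℤ} {x : V} :
    x ∈ Isub M e4 e6 k ↔ ∃ a ∈ M (k - 4), ∃ b ∈ M (k - 6), x = e4 * a + e6 * b := by
  simp only [Isub, Submodule.mem_sup, Submodule.mem_map, LinearMap.mulLeft_apply]
  constructor
  · rintro ⟨y, ⟨a, ha, rfl⟩, z, ⟨b, hb, rfl⟩, rfl⟩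
    exact ⟨a, ha, b, hb, rfl⟩
  · rintro ⟨a, ha, b, hb, rfl⟩
    exact ⟨_, ⟨a, ha, rfl⟩, _, ⟨b, hb, rfl⟩, rfl⟩

lemma Hyp.Isub_le (H : Hyp M R e4 e6) (k : ℤ) : Isub M e4 e6 k ≤ M k := by
  intro x hx
  obtain ⟨a, ha, b, hb, rfl⟩ := mem_Isub.1 hx
  exact (M k).add_mem (H.e4_mul_M ha) (H.e6_mul_M hb)

lemma Hyp.exists_compl (H : Hyp M R e4 e6) (k : ℤ) :
    ∃ C : Submodule K V, C ≤ M k ∧ C ⊓ Isub M e4 e6 k = ⊥ ∧
      ∀ f ∈ M k, ∃ c ∈ C, ∃ i ∈ Isub M e4 e6 k, f = c + i := by
  obtain ⟨Q, hQ⟩ := Submodule.exists_isCompl (Isub M e4 e6 k)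
  refine ⟨Q ⊓ M k, inf_le_right, ?_, ?_⟩
  · rw [inf_right_comm, inf_comm Q, hQ.inf_eq_bot, bot_inf_eq]
  · intro f hf
    have : f ∈ Isub M e4 e6 k ⊔ Q := by rw [hQ.sup_eq_top]; trivial
    obtain ⟨i, hi, q, hq, rfl⟩ := Submodule.mem_sup.1 this
    refine ⟨q, ⟨hq, ?_⟩, i, hi, add_comm _ _⟩
    have := (M k).sub_mem hf (H.Isub_le k hi)
    simpa using this


section construction

variable (H : Hyp M R e4 e6)

/-- a chosen complement of `e4 M_{k-4} + e6 M_{k-6}` in `M_k` -/
noncomputable def Hyp.C (k : ℤ) : Submodule K V := (H.exists_compl k).choose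

lemma Hyp.C_le (k : ℤ) : H.C k ≤ M k := (H.exists_compl k).choose_spec.1

lemma Hyp.C_inf (k : ℤ) : H.C k ⊓ Isub M e4 e6 k = ⊥ := (H.exists_compl k).choose_spec.2.1

lemma Hyp.C_dec (k : ℤ) : ∀ f ∈ M k, ∃ c ∈ H.C k, ∃ i ∈ Isub M e4 e6 k, f = c + i :=
  (H.exists_compl k).choose_spec.2.2

/-- the index type of the free generators -/
abbrev Hyp.J : Type := Σ k : ℤ, ↥(Module.Basis.ofVectorSpaceIndex K ↥(H.C k))

/-- the weight of a generator -/
def Hyp.κ (j : H.J) : ℤ := j.1

/-- the generators -/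
def Hyp.F (j : H.J) : V := ((j.2 : ↥(H.C j.1)) : V)

lemma Hyp.F_mem_C (j : H.J) : H.F j ∈ H.C (H.κ j) := (j.2 : ↥(H.C j.1)).2

lemma Hyp.F_mem (j : H.J) : H.F j ∈ M (H.κ j) := H.C_le _ (H.F_mem_C j)

/-- the linear combination map `P ↦ ∑ P j * F j` -/
noncomputable def Hyp.tot : (H.J →₀ V) →ₗ[V] V := Finsupp.linearCombination V H.F

/-- coefficient families of weight `k` -/
def Hyp.InW (k : ℤ) (P : H.J →₀ V) : Prop := ∀ j, P j ∈ R (k - H.κ j)

omit H in
lemma Hyp.InW.zero {H : Hyp M R e4 e6} (k : ℤ) : H.InW k 0 := fun _ => by simp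

omit H in
lemma Hyp.InW.add {H : Hyp M R e4 e6} {k : ℤ} {P Q : H.J →₀ V} (hP : H.InW k P) (hQ : H.InW k Q) :
    H.InW k (P + Q) := fun j => by
  rw [Finsupp.add_apply]
  exact (R _).add_mem (hP j) (hQ j)

omit H in
lemma Hyp.InW.neg {H : Hyp M R e4 e6} {k : ℤ} {P : H.J →₀ V} (hP : H.InW k P) : H.InW k (-P) := fun j => by
  rw [Finsupp.neg_apply]
  exact (R _).neg_mem (hP j)

omit H in
lemma Hyp.InW.sub {H : Hyp M R e4 e6} {k : ℤ} {P Q : H.J →₀ V} (hP : H.InW k P) (hQ : H.InW k Q) :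
    H.InW k (P - Q) := fun j => by
  rw [Finsupp.sub_apply]
  exact (R _).sub_mem (hP j) (hQ j)

omit H in
lemma Hyp.InW.smul_e4 {H : Hyp M R e4 e6} {k k' : ℤ} {P : H.J →₀ V} (hP : H.InW k P) (hk : k + 4 = k') :
    H.InW k' (e4 • P) := fun j => by
  rw [Finsupp.smul_apply, smul_eq_mul]
  exact Hyp.mem_cast (H.e4_mul (hP j)) (by rw [← hk]; ring)

omit H in
lemma Hyp.InW.smul_e6 {H : Hyp M R e4 e6} {k k' : ℤ} {P : H.J →₀ V} (hP : H.InW k P) (hk : k + 6 = k') :
    H.InW k' (e6 • P) := fun j => by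
  rw [Finsupp.smul_apply, smul_eq_mul]
  exact Hyp.mem_cast (H.e6_mul (hP j)) (by rw [← hk]; ring)

lemma Hyp.tot_apply (P : H.J →₀ V) : H.tot P = P.sum fun j p => p * H.F j := by
  simp [Hyp.tot, Finsupp.linearCombination_apply]

lemma Hyp.tot_mem {k : ℤ} {P : H.J →₀ V} (hP : H.InW k P) : H.tot P ∈ M k := by
  rw [H.tot_apply, Finsupp.sum]
  refine (M k).sum_mem fun j _ => ?_
  exact Hyp.mem_cast (H.mul_mem (hP j) (H.F_mem j)) (by ring)


omit H in
lemma Hyp.InW.single {H : Hyp M R e4 e6} {k : ℤ} (j0 : H.J) {v : V} (hv : v ∈ R (k - H.κ j0)) :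
    H.InW k (Finsupp.single j0 v) := fun j => by
  classical
  rw [Finsupp.single_apply]
  split_ifs with h
  · subst h; exact hv
  · exact (R _).zero_mem

omit H in
lemma Hyp.InW.sum {H : Hyp M R e4 e6} {k : ℤ} {ι : Type} (s : Finset ι) (P : ι → (H.J →₀ V))
    (hP : ∀ i ∈ s, H.InW k (P i)) : H.InW k (∑ i ∈ s, P i) := by
  classical
  induction s using Finset.induction_on with
  | empty => simpa using Hyp.InW.zero (H := H) k
  | insert a s ha ih =>
    rw [Finset.sum_insert ha]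
    exact (hP a (Finset.mem_insert_self _ _)).add
      (ih fun i hi => hP i (Finset.mem_insert_of_mem hi))

lemma Hyp.tot_single (j : H.J) (v : V) : H.tot (Finsupp.single j v) = v * H.F j := by
  simp [Hyp.tot, Finsupp.linearCombination_single]

/-- elements of `C k` are combinations of generators of weight `k` with constant coefficients -/
lemma Hyp.gen_C (k : ℤ) {c : V} (hc : c ∈ H.C k) :
    ∃ P : H.J →₀ V, H.InW k P ∧ H.tot P = c := by
  classical
  let b := Module.Basis.ofVectorSpace K ↥(H.C k)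
  let r := b.repr ⟨c, hc⟩
  refine ⟨∑ i ∈ r.support, Finsupp.single (⟨k, i⟩ : H.J) (algebraMap K V (r i)), ?_, ?_⟩
  · refine Hyp.InW.sum _ _ fun i _ => Hyp.InW.single _ ?_
    have : k - H.κ (⟨k, i⟩ : H.J) = 0 := sub_self k
    rw [this]
    exact H.const_mem _
  · rw [map_sum]
    have h1 := b.linearCombination_repr ⟨c, hc⟩
    rw [Finsupp.linearCombination_apply, Finsupp.sum] at h1
    have h2 := congrArg (fun x : ↥(H.C k) => (x : V)) h1
    simp only [Submodule.coe_sum, Submodule.coe_smul] at h2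
    rw [← h2]
    refine Finset.sum_congr rfl fun i _ => ?_
    rw [H.tot_single, Algebra.smul_def]
    congr 1
    simp [Hyp.F, b, Module.Basis.ofVectorSpace_apply_self]

lemma Hyp.gen_aux (n : ℕ) :
    ∀ k : ℤ, k < n → ∀ f ∈ M k, ∃ P : H.J →₀ V, H.InW k P ∧ H.tot P = f := by
  induction n with
  | zero =>
    intro k hk f hf
    refine ⟨0, Hyp.InW.zero k, ?_⟩
    rw [map_zero, H.M_neg k (by simpa using hk) f hf]
  | succ n ih =>
    intro k hk f hf
    obtain ⟨c, hc, i, hi, rfl⟩ := H.C_dec k f hf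
    obtain ⟨a, ha, b, hb, rfl⟩ := mem_Isub.1 hi
    obtain ⟨Pc, hPc, rfl⟩ := H.gen_C k hc
    obtain ⟨Pa, hPa, rfl⟩ := ih (k - 4) (by push_cast at hk; omega) a ha
    obtain ⟨Pb, hPb, rfl⟩ := ih (k - 6) (by push_cast at hk; omega) b hb
    refine ⟨Pc + (e4 • Pa + e6 • Pb),
      hPc.add ((hPa.smul_e4 (by ring)).add (hPb.smul_e6 (by ring))), ?_⟩
    simp only [map_add, map_smul, smul_eq_mul]

lemma Hyp.gen (k : ℤ) {f : V} (hf : f ∈ M k) :
    ∃ P : H.J →₀ V, H.InW k P ∧ H.tot P = f :=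
  H.gen_aux (k + 1).toNat k (by omega) f hf


lemma Hyp.F_ne_zero (j : H.J) : H.F j ≠ 0 := by
  have h := (Module.Basis.ofVectorSpace K ↥(H.C j.1)).ne_zero j.2
  rw [Module.Basis.ofVectorSpace_apply_self] at h
  intro h0
  exact h (Subtype.ext h0)

lemma Hyp.κ_nonneg (j : H.J) : 0 ≤ H.κ j := by
  by_contra hneg
  exact H.F_ne_zero j (H.M_neg _ (not_le.1 hneg) _ (H.F_mem j))

/-- constant combinations of weight-`k` generators that lie in `Isub k` vanish -/
lemma Hyp.top_zero (k : ℤ) (c : H.J →₀ K) (hc : ∀ j, H.κ j ≠ k → c j = 0)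
    (h : (c.sum fun j x => x • H.F j) ∈ Isub M e4 e6 k) : c = 0 := by
  classical
  have hmemC : (c.sum fun j x => x • H.F j) ∈ H.C k := by
    rw [Finsupp.sum]
    refine (H.C k).sum_mem fun j hj => ?_
    have hκ : H.κ j = k := by
      by_contra hne
      exact (Finsupp.mem_support_iff.1 hj) (hc j hne)
    exact (H.C k).smul_mem _ (hκ ▸ H.F_mem_C j)
  have hzero : (c.sum fun j x => x • H.F j) = 0 := by
    have : (c.sum fun j x => x • H.F j) ∈ H.C k ⊓ Isub M e4 e6 k := ⟨hmemC, h⟩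
    rw [H.C_inf k] at this
    simpa using this
  have hinj : Set.InjOn (Sigma.mk k : _ → H.J) ((Sigma.mk k : _ → H.J) ⁻¹' ↑c.support) :=
    fun a _ b _ hab => by
      simpa using hab
  let l := Finsupp.comapDomain (Sigma.mk k : _ → H.J) c hinj
  let v : ↥(Module.Basis.ofVectorSpaceIndex K ↥(H.C k)) → V :=
    ⇑(H.C k).subtype ∘ ⇑(Module.Basis.ofVectorSpace K ↥(H.C k))
  have hv : ∀ i, v i = H.F ⟨k, i⟩ := by
    intro i
    simp [v, Hyp.F, Module.Basis.ofVectorSpace_apply_self]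
  have hli : LinearIndependent K v :=
    (Module.Basis.ofVectorSpace K ↥(H.C k)).linearIndependent.map' (H.C k).subtype
      (Submodule.ker_subtype _)
  have hl : Finsupp.linearCombination K v l = 0 := by
    rw [Finsupp.linearCombination_comapDomain]
    rw [← hzero, Finsupp.sum]
    simp only [hv]
    refine Finset.sum_preimage (Sigma.mk k : _ → H.J) c.support hinj
      (fun j => c j • H.F j) ?_
    intro j _ hj
    have hne : H.κ j ≠ k := by
      intro hκ
      apply hj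
      obtain ⟨k', i⟩ := j
      simp only [Hyp.κ] at hκ
      subst hκ
      exact ⟨i, rfl⟩
    rw [hc j hne, zero_smul]
  have hl0 : l = 0 := linearIndependent_iff.1 hli l hl
  ext j
  rw [Finsupp.zero_apply]
  by_cases hκ : H.κ j = k
  · obtain ⟨k', i⟩ := j
    simp only [Hyp.κ] at hκ
    subst hκ
    have := DFunLike.congr_fun hl0 i
    rw [Finsupp.comapDomain_apply, Finsupp.zero_apply] at this
    exact this
  · exact hc j hκ


lemma Hyp.free_aux (n : ℕ) :
    ∀ k : ℤ, k < n → ∀ P : H.J →₀ V, H.InW k P → H.tot P = 0 → P = 0 := by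
  classical
  induction n with
  | zero =>
    intro k hk P hP _
    ext j
    rw [Finsupp.zero_apply]
    refine H.R_neg (k - H.κ j) ?_ _ (hP j)
    have := H.κ_nonneg j
    have hk' : k < 0 := by simpa using hk
    omega
  | succ n ih =>
    intro k hk P hP htot
    have key : ∀ j, ∃ (c : K) (A B : V), A ∈ R (k - 4 - H.κ j) ∧ B ∈ R (k - 6 - H.κ j) ∧
        P j = algebraMap K V c + e4 * A + e6 * B ∧ (H.κ j ≠ k → c = 0) ∧
        (P j = 0 → c = 0 ∧ A = 0 ∧ B = 0) := by
      intro j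
      by_cases h0 : P j = 0
      · exact ⟨0, 0, 0, (R _).zero_mem, (R _).zero_mem, by simp [h0], fun _ => rfl,
          fun _ => ⟨rfl, rfl, rfl⟩⟩
      · obtain ⟨c, A, B, hA, hB, hPj, hc⟩ := H.dec _ _ (hP j)
        refine ⟨c, A, B, Hyp.mem_cast hA (by ring), Hyp.mem_cast hB (by ring), hPj, ?_,
          fun h => absurd h h0⟩
        intro hκ
        apply hc
        intro h
        apply hκ
        omega
    choose c A B hA hB hPj hc h0 using key
    let cfin : H.J →₀ K := Finsupp.onFinset P.support c (fun j hj => by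
      rw [Finsupp.mem_support_iff]
      intro h
      exact hj (h0 j h).1)
    let PA : H.J →₀ V := Finsupp.onFinset P.support A (fun j hj => by
      rw [Finsupp.mem_support_iff]
      intro h
      exact hj (h0 j h).2.1)
    let PB : H.J →₀ V := Finsupp.onFinset P.support B (fun j hj => by
      rw [Finsupp.mem_support_iff]
      intro h
      exact hj (h0 j h).2.2)
    have hPA : H.InW (k - 4) PA := fun j => hA j
    have hPB : H.InW (k - 6) PB := fun j => hB j
    have hdecomp : P = cfin.mapRange (algebraMap K V) (map_zero _) + (e4 • PA + e6 • PB) := by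
      ext j
      simp only [Finsupp.add_apply, Finsupp.mapRange_apply, Finsupp.smul_apply, smul_eq_mul,
        cfin, PA, PB, Finsupp.onFinset_apply]
      rw [hPj j]
      ring
    have htop : H.tot (cfin.mapRange (algebraMap K V) (map_zero _)) =
        cfin.sum fun j x => x • H.F j := by
      rw [H.tot_apply, Finsupp.sum_mapRange_index (fun j => by simp)]
      refine Finsupp.sum_congr fun j _ => ?_
      rw [Algebra.smul_def]
    have htot' : (cfin.sum fun j x => x • H.F j) + (e4 * H.tot PA + e6 * H.tot PB) = 0 := by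
      rw [← htop]
      have := htot
      rw [hdecomp] at this
      simpa only [map_add, map_smul, smul_eq_mul] using this
    have hI : (cfin.sum fun j x => x • H.F j) ∈ Isub M e4 e6 k := by
      have h1 : (cfin.sum fun j x => x • H.F j) = -(e4 * H.tot PA + e6 * H.tot PB) :=
        eq_neg_of_add_eq_zero_left htot'
      rw [h1]
      exact (Isub M e4 e6 k).neg_mem
        (mem_Isub.2 ⟨_, H.tot_mem hPA, _, H.tot_mem hPB, rfl⟩)
    have hcfin : cfin = 0 :=
      H.top_zero k cfin (fun j hj => by simp only [cfin, Finsupp.onFinset_apply]; exact hc j hj) hI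
    have hrel : e4 * H.tot PA + e6 * H.tot PB = 0 := by
      have := htot'
      rw [hcfin, Finsupp.sum_zero_index, zero_add] at this
      exact this
    obtain ⟨h, hh, hb, ha⟩ := H.reg k _ _ (H.tot_mem hPA) (H.tot_mem hPB) hrel
    obtain ⟨Hh, hHh, rfl⟩ := H.gen (k - 10) hh
    have h1 : PA + e6 • Hh = 0 := by
      refine ih (k - 4) (by push_cast at hk; omega) _ (hPA.add (hHh.smul_e6 (by ring))) ?_
      rw [map_add, map_smul, smul_eq_mul, ha, neg_add_cancel]
    have h2 : PB - e4 • Hh = 0 := by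
      refine ih (k - 6) (by push_cast at hk; omega) _ (hPB.sub (hHh.smul_e4 (by ring))) ?_
      rw [map_sub, map_smul, smul_eq_mul, hb, sub_self]
    have hPA' : PA = -(e6 • Hh) := eq_neg_of_add_eq_zero_left h1
    have hPB' : PB = e4 • Hh := sub_eq_zero.1 h2
    rw [hdecomp, hcfin, hPA', hPB']
    ext j
    simp only [Finsupp.mapRange_zero, zero_add, Finsupp.add_apply, Finsupp.smul_apply,
      Finsupp.neg_apply, smul_eq_mul, Finsupp.zero_apply]
    ring

lemma Hyp.free (k : ℤ) {P : H.J →₀ V} (hP : H.InW k P) (h : H.tot P = 0) : P = 0 :=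
  H.free_aux (k + 1).toNat k (by omega) P hP h

end construction

/-- The abstract free module theorem. -/
theorem exists_free_generators_abstract (H : Hyp M R e4 e6) :
    ∃ (J : Type) (κ : J → ℤ) (F : J → V),
      (∀ j, F j ∈ M (κ j)) ∧
      (∀ (k : ℤ) (f : V), f ∈ M k →
        ∃ (s : Finset J) (P : J → V), (∀ j ∈ s, P j ∈ R (k - κ j)) ∧
          f = ∑ j ∈ s, P j * F j) ∧
      (∀ (k : ℤ) (s : Finset J) (P : J → V), (∀ j ∈ s, P j ∈ R (k - κ j)) →
          ∑ j ∈ s, P j * F j = 0 → ∀ j ∈ s, P j = 0) := by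
  classical
  refine ⟨H.J, H.κ, H.F, H.F_mem, ?_, ?_⟩
  · intro k f hf
    obtain ⟨P, hP, rfl⟩ := H.gen k hf
    refine ⟨P.support, ⇑P, fun j _ => hP j, ?_⟩
    rw [H.tot_apply, Finsupp.sum]
  · intro k s P hP hsum j hj
    let P' : H.J →₀ V := Finsupp.onFinset s (fun j => if j ∈ s then P j else 0) (fun j hj => by
      by_contra h
      simp [h] at hj)
    have hP' : H.InW k P' := by
      intro j
      simp only [P', Finsupp.onFinset_apply]
      split_ifs with h
      · exact hP j h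
      · exact (R _).zero_mem
    have htot : H.tot P' = 0 := by
      rw [Hyp.tot, Finsupp.linearCombination_onFinset]
      rw [← hsum]
      refine Finset.sum_congr rfl fun j hj => ?_
      simp [hj]
    have := H.free k hP' htot
    have hj' := DFunLike.congr_fun this j
    simpa [P', Finsupp.onFinset_apply, hj] using hj'

end Fermat.Agent.S20.FreeGens
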